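/-
Programme I (S33 long shot), leaf L6: Newton/Hensel for `n`-th roots.  Part 1: the class of
"ultrametric submultiplicative" functions the leaf works with.

`IsUltra ν` for `ν : R → Γ` (`R` a commutative ring, `Γ` a linearly ordered commutative monoid with
zero, e.g. `ℝ≥0` or the value group of a valuation): `ν 0 = 0`, `ν 1 ≤ 1`, `ν (-x) = ν x`,
`ν (x + y) ≤ max (ν x) (ν y)`, `ν (x * y) ≤ ν x * ν y`.  No typeclass on `R` beyond `CommRing`, no
topology.  Providers: valuations (`IsUltra.of_valuation`), nonarchimedean ring seminorms viewed in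
`ℝ≥0` (`IsUltra.of_ringSeminorm`).

Main tools: the unit ball is a subring (`IsUltra.unitBall`), hence
* `IsUltra.pow_sub_pow_le` : `ν x ≤ 1 → ν y ≤ 1 → ν (x ^ n - y ^ n) ≤ ν (x - y)`;
* `IsUltra.exists_pow_add_expansion` : `(x + d) ^ n = x ^ n + n * x ^ (n - 1) * d + K * d ^ 2` with
  `ν K ≤ 1`.
-/
import Mathlib

set_option autoImplicit false

namespace Fermat.Agent.FF3.NRoot

variable {R : Type*} [CommRing R] {Γ : Type*} [LinearOrderedCommMonoidWithZero Γ]

/-- `ν : R → Γ` is an ultrametric, submultiplicative, even function with `ν 0 = 0`, `ν 1 ≤ 1`. -/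
structure IsUltra (ν : R → Γ) : Prop where
  map_zero : ν 0 = 0
  map_one_le : ν 1 ≤ 1
  map_neg : ∀ x, ν (-x) = ν x
  map_add_le : ∀ x y, ν (x + y) ≤ max (ν x) (ν y)
  map_mul_le : ∀ x y, ν (x * y) ≤ ν x * ν y

namespace IsUltra

variable {ν : R → Γ} (h : IsUltra ν)
include h

theorem map_sub_le (x y : R) : ν (x - y) ≤ max (ν x) (ν y) := by
  rw [sub_eq_add_neg]
  exact (h.map_add_le x (-y)).trans (by rw [h.map_neg])

theorem map_sub_comm (x y : R) : ν (x - y) = ν (y - x) := by
  rw [← neg_sub, h.map_neg]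

theorem map_add_le_of_le {x y : R} {B : Γ} (hx : ν x ≤ B) (hy : ν y ≤ B) : ν (x + y) ≤ B :=
  (h.map_add_le x y).trans (max_le hx hy)

theorem map_sub_le_of_le {x y : R} {B : Γ} (hx : ν x ≤ B) (hy : ν y ≤ B) : ν (x - y) ≤ B :=
  (h.map_sub_le x y).trans (max_le hx hy)

theorem map_add_lt_of_lt {x y : R} {B : Γ} (hx : ν x < B) (hy : ν y < B) : ν (x + y) < B :=
  (h.map_add_le x y).trans_lt (max_lt hx hy)

theorem map_sub_lt_of_lt {x y : R} {B : Γ} (hx : ν x < B) (hy : ν y < B) : ν (x - y) < B :=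
  (h.map_sub_le x y).trans_lt (max_lt hx hy)

theorem map_mul_le_of_le {x y : R} {B C : Γ} (hx : ν x ≤ B) (hy : ν y ≤ C) :
    ν (x * y) ≤ B * C :=
  (h.map_mul_le x y).trans (mul_le_mul' hx hy)

theorem map_sum_le {α : Type*} (s : Finset α) (f : α → R) {B : Γ} (hf : ∀ a ∈ s, ν (f a) ≤ B) :
    ν (∑ a ∈ s, f a) ≤ B := by
  classical
  induction s using Finset.induction_on with
  | empty => simp [h.map_zero]
  | insert a s ha ih =>
    rw [Finset.sum_insert ha]
    exact h.map_add_le_of_le (hf a (Finset.mem_insert_self a s))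
      (ih fun b hb => hf b (Finset.mem_insert_of_mem hb))

/-- The unit ball of `ν` is a subring. -/
def unitBall : Subring R where
  carrier := {x | ν x ≤ 1}
  mul_mem' := fun {a b} ha hb => by
    have := h.map_mul_le_of_le ha hb
    simpa using this
  one_mem' := h.map_one_le
  add_mem' := fun {a b} ha hb => h.map_add_le_of_le ha hb
  zero_mem' := by simp [h.map_zero]
  neg_mem' := fun {a} ha => by
    show ν (-a) ≤ 1
    rw [h.map_neg]; exact ha

theorem mem_unitBall {x : R} : x ∈ h.unitBall ↔ ν x ≤ 1 := Iff.rfl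

theorem map_natCast_le (n : ℕ) : ν (n : R) ≤ 1 := natCast_mem h.unitBall n

theorem map_intCast_le (n : ℤ) : ν (n : R) ≤ 1 := intCast_mem h.unitBall n

theorem map_pow_le (x : R) (n : ℕ) : ν (x ^ n) ≤ ν x ^ n := by
  induction n with
  | zero => simpa using h.map_one_le
  | succ n ih =>
    rw [pow_succ, pow_succ]
    exact h.map_mul_le_of_le ih le_rfl

theorem map_pow_le_one {x : R} (hx : ν x ≤ 1) (n : ℕ) : ν (x ^ n) ≤ 1 :=
  h.unitBall.pow_mem hx n

theorem map_le_one_of_sub_one {x : R} (hx : ν (x - 1) ≤ 1) : ν x ≤ 1 := by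
  have := h.map_add_le_of_le hx h.map_one_le
  simpa using this

/-- On the unit ball, `x ↦ x ^ n` is 1-Lipschitz. -/
theorem pow_sub_pow_le {x y : R} (hx : ν x ≤ 1) (hy : ν y ≤ 1) (n : ℕ) :
    ν (x ^ n - y ^ n) ≤ ν (x - y) := by
  have hS : ∑ i ∈ Finset.range n, x ^ i * y ^ (n - 1 - i) ∈ h.unitBall :=
    Subring.sum_mem _ fun i _ =>
      Subring.mul_mem _ (h.unitBall.pow_mem hx i) (h.unitBall.pow_mem hy _)
  have key : x ^ n - y ^ n = (x - y) * ∑ i ∈ Finset.range n, x ^ i * y ^ (n - 1 - i) :=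
    ((Commute.all x y).mul_geom_sum₂ n).symm
  rw [key]
  have := h.map_mul_le_of_le (le_refl (ν (x - y))) hS
  simpa using this

theorem pow_sub_one_le {x : R} (hx : ν x ≤ 1) (n : ℕ) : ν (x ^ n - 1) ≤ ν (x - 1) := by
  have := h.pow_sub_pow_le hx h.map_one_le n
  simpa using this

/-- Second order expansion of `(x + d) ^ n` with a remainder coefficient in the unit ball. -/
theorem exists_pow_add_expansion {x d : R} (hx : ν x ≤ 1) (hd : ν d ≤ 1) (n : ℕ) :
    ∃ K : R, ν K ≤ 1 ∧ (x + d) ^ n = x ^ n + n * x ^ (n - 1) * d + K * d ^ 2 := by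
  obtain ⟨K, hK⟩ := Polynomial.powAddExpansion (⟨x, hx⟩ : h.unitBall) ⟨d, hd⟩ n
  refine ⟨K, K.2, ?_⟩
  have := congrArg (Subtype.val : h.unitBall → R) hK
  simpa using this

end IsUltra

/-- A valuation is `IsUltra`. -/
theorem IsUltra.of_valuation {Γ₀ : Type*} [LinearOrderedCommMonoidWithZero Γ₀]
    (w : Valuation R Γ₀) : IsUltra (w : R → Γ₀) where
  map_zero := _root_.map_zero w
  map_one_le := (_root_.map_one w).le
  map_neg := fun x => Valuation.map_neg w x
  map_add_le := fun x y => Valuation.map_add w x y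
  map_mul_le := fun x y => (_root_.map_mul w x y).le

end Fermat.Agent.FF3.NRoot
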