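/-
Programme I (S33 long shot), leaf L6: Newton/Hensel for `n`-th roots.  Part 2: the chord iteration
and its estimates, WITHOUT any completeness (this is what the congruence dialect consumes; the
approximants of a rational function stay rational).

`approxRoot n ninv g k` : the sequence `y₀ = 1`, `y_{k+1} = y_k - ninv * (y_k ^ n - g)`; it only
uses ring operations on `g` and `ninv` (`map_approxRoot` : it commutes with ring homomorphisms).

For `ν` with `IsUltra ν`, `(n : R) * ninv = 1`, `ν ninv ≤ c`, `1 ≤ c`, `θ := c * (c * ν (g - 1)) ≤ 1`: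
* `approxRoot_pow_sub_le`  : `ν (y_k ^ n - g) ≤ θ ^ k * ν (g - 1)`;
* `approxRoot_sub_one_le`  : `ν (y_k - 1) ≤ c * ν (g - 1)`;
* `approxRoot_succ_sub_le` : `ν (y_{k+1} - y_k) ≤ c * (θ ^ k * ν (g - 1))`;
* `approxRoot_sub_le`      : `ν (y_m - y_k) ≤ c * (θ ^ k * ν (g - 1))` for `k ≤ m`.
Inverse Lipschitz bound / uniqueness:
* `sub_le_of_pow_sub_pow` : `ν (y - 1) ≤ η`, `ν (y' - 1) ≤ η`, `c * η < 1` ⟹
  `ν (y - y') ≤ c * ν (y ^ n - y' ^ n)`.
-/
import Mathlib
import Fermat.Agent.FF3.NRoot.Ultra

set_option autoImplicit false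

namespace Fermat.Agent.FF3.NRoot

variable {R : Type*} [CommRing R] {Γ : Type*} [LinearOrderedCommMonoidWithZero Γ]

/-- Chord iteration for `y ^ n = g` starting at `1`: `y_{k+1} = y_k - ninv * (y_k ^ n - g)`. -/
def approxRoot (n : ℕ) (ninv g : R) : ℕ → R
  | 0 => 1
  | k + 1 => approxRoot n ninv g k - ninv * (approxRoot n ninv g k ^ n - g)

@[simp] theorem approxRoot_zero (n : ℕ) (ninv g : R) : approxRoot n ninv g 0 = 1 := rfl

theorem approxRoot_succ (n : ℕ) (ninv g : R) (k : ℕ) :
    approxRoot n ninv g (k + 1) =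
      approxRoot n ninv g k - ninv * (approxRoot n ninv g k ^ n - g) := rfl

/-- The approximants are natural in the ring. -/
theorem map_approxRoot {S : Type*} [CommRing S] (φ : R →+* S) (n : ℕ) (ninv g : R) (k : ℕ) :
    φ (approxRoot n ninv g k) = approxRoot n (φ ninv) (φ g) k := by
  induction k with
  | zero => simp
  | succ k ih => simp [approxRoot_succ, ih]

/-- The approximants of `g = 1` are constant. -/
theorem approxRoot_one (n : ℕ) (ninv : R) (k : ℕ) : approxRoot n ninv 1 k = 1 := by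
  induction k with
  | zero => simp
  | succ k ih => simp [approxRoot_succ, ih]

/-- The approximants lie in every subring containing `ninv` and `g`. -/
theorem approxRoot_mem {S : Type*} [SetLike S R] [SubringClass S R] (A : S) (n : ℕ) {ninv g : R}
    (hninv : ninv ∈ A) (hg : g ∈ A) (k : ℕ) : approxRoot n ninv g k ∈ A := by
  induction k with
  | zero => simp
  | succ k ih =>
    rw [approxRoot_succ]
    exact sub_mem ih (mul_mem hninv (sub_mem (pow_mem ih n) hg))

section Estimates

variable {ν : R → Γ} (h : IsUltra ν) {n : ℕ} {ninv g : R} (hn : (n : R) * ninv = 1)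
  {c : Γ} (hc1 : 1 ≤ c) (hc : ν ninv ≤ c) (hθ : c * (c * ν (g - 1)) ≤ 1)
include h hn hc1 hc hθ

theorem approxRoot_spec (k : ℕ) :
    ν (approxRoot n ninv g k ^ n - g) ≤ (c * (c * ν (g - 1))) ^ k * ν (g - 1) ∧
      ν (approxRoot n ninv g k - 1) ≤ c * ν (g - 1) := by
  set ε := ν (g - 1) with hε
  set θ := c * (c * ε) with hθdef
  have hcε : c * ε ≤ θ := by
    have := mul_le_mul' hc1 (le_refl (c * ε))
    simpa using this
  have hcε1 : c * ε ≤ 1 := hcε.trans hθ
  induction k with
  | zero =>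
    refine ⟨?_, ?_⟩
    · simp only [approxRoot_zero, one_pow, pow_zero, one_mul]
      rw [h.map_sub_comm]
    · simp [h.map_zero]
  | succ k ih =>
    obtain ⟨ihE, ihD⟩ := ih
    set y := approxRoot n ninv g k with hy
    set e := y ^ n - g with he
    have hθk : θ ^ k ≤ 1 := pow_le_one' hθ k
    have hy1 : ν y ≤ 1 := h.map_le_one_of_sub_one (ihD.trans hcε1)
    -- the increment
    have hδ : ν (-(ninv * e)) ≤ c * (θ ^ k * ε) := by
      rw [h.map_neg]
      exact h.map_mul_le_of_le hc ihE
    have hδcε : c * (θ ^ k * ε) ≤ c * ε := by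
      have := mul_le_mul' (le_refl c) (mul_le_mul' hθk (le_refl ε))
      simpa using this
    have hδ1 : ν (-(ninv * e)) ≤ 1 := hδ.trans (hδcε.trans hcε1)
    obtain ⟨K, hK1, hK⟩ := h.exists_pow_add_expansion hy1 hδ1 n
    have hsucc : approxRoot n ninv g (k + 1) = y + -(ninv * e) := by
      rw [approxRoot_succ]; ring
    refine ⟨?_, ?_⟩
    · -- the error
      have hid : approxRoot n ninv g (k + 1) ^ n - g =
          e * (1 - y ^ (n - 1)) + K * (-(ninv * e)) ^ 2 := by
        rw [hsucc, hK, he]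
        linear_combination (-(y ^ (n - 1) * (y ^ n - g))) * hn
      rw [hid]
      have hgoal : θ ^ (k + 1) * ε = θ ^ k * ε * θ := by
        rw [pow_succ]; exact mul_right_comm _ _ _
      rw [hgoal]
      apply h.map_add_le_of_le
      · -- first term: `e * (1 - y ^ (n-1))`
        have h1 : ν (1 - y ^ (n - 1)) ≤ θ := by
          rw [h.map_sub_comm]
          exact (h.pow_sub_one_le hy1 _).trans (ihD.trans hcε)
        exact h.map_mul_le_of_le ihE h1
      · -- second term
        have h2 : ν ((-(ninv * e)) ^ 2) ≤ c * (θ ^ k * ε) * (c * (θ ^ k * ε)) := by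
          rw [sq]
          exact h.map_mul_le_of_le hδ hδ
        have h3 : c * (θ ^ k * ε) * (c * (θ ^ k * ε)) = θ ^ k * ε * θ * θ ^ k := by
          have aux : ∀ a : Γ, c * (a * ε) * (c * (a * ε)) = a * ε * (c * (c * ε)) * a :=
            fun a => by ac_rfl
          exact aux _
        have h4 : θ ^ k * ε * θ * θ ^ k ≤ θ ^ k * ε * θ := by
          have := mul_le_mul' (le_refl (θ ^ k * ε * θ)) hθk
          simpa using this
        have := h.map_mul_le_of_le hK1 h2
        rw [one_mul, h3] at this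
        exact this.trans h4
    · -- the distance to 1
      have hid : approxRoot n ninv g (k + 1) - 1 = (y - 1) + -(ninv * e) := by
        rw [hsucc]; ring
      rw [hid]
      exact h.map_add_le_of_le ihD (hδ.trans hδcε)

theorem approxRoot_pow_sub_le (k : ℕ) :
    ν (approxRoot n ninv g k ^ n - g) ≤ (c * (c * ν (g - 1))) ^ k * ν (g - 1) :=
  (approxRoot_spec h hn hc1 hc hθ k).1

theorem approxRoot_sub_one_le (k : ℕ) : ν (approxRoot n ninv g k - 1) ≤ c * ν (g - 1) :=
  (approxRoot_spec h hn hc1 hc hθ k).2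

theorem approxRoot_le_one (k : ℕ) : ν (approxRoot n ninv g k) ≤ 1 := by
  have hcε : c * ν (g - 1) ≤ c * (c * ν (g - 1)) := by
    have := mul_le_mul' hc1 (le_refl (c * ν (g - 1)))
    simpa using this
  exact h.map_le_one_of_sub_one
    ((approxRoot_sub_one_le h hn hc1 hc hθ k).trans (hcε.trans hθ))

theorem approxRoot_succ_sub_le (k : ℕ) :
    ν (approxRoot n ninv g (k + 1) - approxRoot n ninv g k) ≤
      c * ((c * (c * ν (g - 1))) ^ k * ν (g - 1)) := by
  have hid : approxRoot n ninv g (k + 1) - approxRoot n ninv g k =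
      -(ninv * (approxRoot n ninv g k ^ n - g)) := by
    rw [approxRoot_succ]; ring
  rw [hid, h.map_neg]
  exact h.map_mul_le_of_le hc (approxRoot_pow_sub_le h hn hc1 hc hθ k)

theorem approxRoot_sub_le {k m : ℕ} (hkm : k ≤ m) :
    ν (approxRoot n ninv g m - approxRoot n ninv g k) ≤
      c * ((c * (c * ν (g - 1))) ^ k * ν (g - 1)) := by
  induction m, hkm using Nat.le_induction with
  | base => simp [h.map_zero]
  | succ m hkm ih =>
    have hid : approxRoot n ninv g (m + 1) - approxRoot n ninv g k =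
        (approxRoot n ninv g (m + 1) - approxRoot n ninv g m) +
          (approxRoot n ninv g m - approxRoot n ninv g k) := by ring
    rw [hid]
    refine h.map_add_le_of_le ((approxRoot_succ_sub_le h hn hc1 hc hθ m).trans ?_) ih
    have hpow : (c * (c * ν (g - 1))) ^ m ≤ (c * (c * ν (g - 1))) ^ k :=
      pow_le_pow_right_of_le_one' hθ hkm
    exact mul_le_mul' le_rfl (mul_le_mul' hpow le_rfl)

end Estimates

/-- Inverse Lipschitz bound for `y ↦ y ^ n` near `1`: if `ν (y - 1), ν (y' - 1) ≤ η` with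
`c * η < 1` then `ν (y - y') ≤ c * ν (y ^ n - y' ^ n)`. -/
theorem sub_le_of_pow_sub_pow {ν : R → Γ} (h : IsUltra ν) {n : ℕ} {ninv : R}
    (hn : (n : R) * ninv = 1) {c : Γ} (hc1 : 1 ≤ c) (hc : ν ninv ≤ c) {y y' : R} {η : Γ}
    (hy : ν (y - 1) ≤ η) (hy' : ν (y' - 1) ≤ η) (hη : c * η < 1) :
    ν (y - y') ≤ c * ν (y ^ n - y' ^ n) := by
  have hη1 : η ≤ 1 := by
    have := mul_le_mul' hc1 (le_refl η)
    rw [one_mul] at this
    exact this.trans hη.le
  have hy1 : ν y ≤ 1 := h.map_le_one_of_sub_one (hy.trans hη1)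
  have hy'1 : ν y' ≤ 1 := h.map_le_one_of_sub_one (hy'.trans hη1)
  set r := ∑ i ∈ Finset.range n, (y ^ i * y' ^ (n - 1 - i) - 1) with hr
  have hrη : ν r ≤ η := by
    refine h.map_sum_le _ _ fun i _ => ?_
    have hid : y ^ i * y' ^ (n - 1 - i) - 1 = (y ^ i - 1) * y' ^ (n - 1 - i) +
        (y' ^ (n - 1 - i) - 1) := by ring
    rw [hid]
    apply h.map_add_le_of_le
    · have := h.map_mul_le_of_le ((h.pow_sub_one_le hy1 i).trans hy)
        (h.map_pow_le_one hy'1 (n - 1 - i))
      simpa using this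
    · exact (h.pow_sub_one_le hy'1 _).trans hy'
  have hS : ∑ i ∈ Finset.range n, y ^ i * y' ^ (n - 1 - i) = (n : R) + r := by
    rw [hr, Finset.sum_sub_distrib]
    simp
  have hgeom : (y - y') * ((n : R) + r) = y ^ n - y' ^ n := by
    rw [← hS]; exact (Commute.all y y').mul_geom_sum₂ n
  have hid : y - y' = ninv * (y ^ n - y' ^ n) + -((y - y') * (ninv * r)) := by
    linear_combination (-(y - y')) * hn + ninv * hgeom
  have hle : ν (y - y') ≤ max (c * ν (y ^ n - y' ^ n)) (ν (y - y') * (c * η)) := by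
    conv_lhs => rw [hid]
    refine (h.map_add_le _ _).trans (max_le_max (h.map_mul_le_of_le hc le_rfl) ?_)
    rw [h.map_neg]
    exact h.map_mul_le_of_le le_rfl (h.map_mul_le_of_le hc hrη)
  rcases le_max_iff.mp hle with h1 | h2
  · exact h1
  · -- then `ν (y - y') = 0`
    have h0 : ν (y - y') = 0 := by
      by_contra hne
      have hpos : 0 < ν (y - y') := zero_lt_iff.mpr hne
      have := mul_lt_mul_of_pos_left hη hpos
      rw [mul_one] at this
      exact absurd h2 (not_le.mpr this)
    rw [h0]; exact zero_le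

/-- Uniqueness up to `ν`-null elements of `n`-th roots close to `1`. -/
theorem sub_eq_zero_of_pow_eq {ν : R → Γ} (h : IsUltra ν) {n : ℕ} {ninv : R}
    (hn : (n : R) * ninv = 1) {c : Γ} (hc1 : 1 ≤ c) (hc : ν ninv ≤ c) {y y' : R}
    (hy : c * ν (y - 1) < 1) (hy' : c * ν (y' - 1) < 1) (hpow : ν (y ^ n - y' ^ n) = 0) :
    ν (y - y') = 0 := by
  have hη : c * max (ν (y - 1)) (ν (y' - 1)) < 1 := by
    rcases le_total (ν (y - 1)) (ν (y' - 1)) with hle | hle
    · rwa [max_eq_right hle]
    · rwa [max_eq_left hle]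
  have := sub_le_of_pow_sub_pow h hn hc1 hc (le_max_left _ _) (le_max_right _ _) hη
  rw [hpow, mul_zero] at this
  exact le_antisymm this zero_le

end Fermat.Agent.FF3.NRoot
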