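/-
Programme I (S33 long shot), leaf L6: Newton/Hensel for `n`-th roots.  Part 3: exact roots in a ring
which is sequentially complete for the max of a finite family of `IsUltra` functions.

* `SeqTendsTo v u x`, `SeqCauchy v u`, `SeqComplete v` : explicit `ε`–`N` notions for a family
  `v : ι → R → Γ` (uniform in `i`); no topology, no instance;
* `limit_spec` : whatever the approximants converge to (for ONE `ν`) is a root up to a `ν`-null element
  and satisfies `ν (y - 1) ≤ c * ν (g - 1)`;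
* `approxRoot_seqCauchy` : the approximants are Cauchy for a finite family;
* `exists_root_near_one'` (value monoid `Γ` arbitrary, with the hypothesis that `c θ ^ k ε → 0`) and
  `exists_root_near_one` (`Γ = ℝ≥0`, hypothesis `c i * (c i * v i (g - 1)) < 1` only);
* `root_unique`, `exists_root_near_one_of_sep`, `exists_root_near`, `exists_root_near_of_sep`.
-/
import Mathlib
import Fermat.Agent.FF3.NRoot.Chord

set_option autoImplicit false

namespace Fermat.Agent.FF3.NRoot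

open scoped NNReal

variable {R : Type*} [CommRing R] {Γ : Type*} [LinearOrderedCommMonoidWithZero Γ]

section Defs

variable {ι : Type*}

/-- `u k → x` uniformly for the family `v`. -/
def SeqTendsTo (v : ι → R → Γ) (u : ℕ → R) (x : R) : Prop :=
  ∀ γ : Γ, 0 < γ → ∃ N : ℕ, ∀ k, N ≤ k → ∀ i, v i (u k - x) < γ

/-- `u` is Cauchy uniformly for the family `v`. -/
def SeqCauchy (v : ι → R → Γ) (u : ℕ → R) : Prop :=
  ∀ γ : Γ, 0 < γ → ∃ N : ℕ, ∀ m, N ≤ m → ∀ k, N ≤ k → ∀ i, v i (u m - u k) < γ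

/-- Sequential completeness for the family `v`. -/
def SeqComplete (v : ι → R → Γ) : Prop :=
  ∀ u : ℕ → R, SeqCauchy v u → ∃ x : R, SeqTendsTo v u x

end Defs

section Limit

variable {ν : R → Γ} (h : IsUltra ν) {n : ℕ} {ninv g : R} (hn : (n : R) * ninv = 1)
  {c : Γ} (hc1 : 1 ≤ c) (hc : ν ninv ≤ c) (hθ : c * (c * ν (g - 1)) ≤ 1)
include h hn hc1 hc hθ

/-- A `ν`-limit of the approximants is a root up to a `ν`-null element, at distance
`≤ c * ν (g - 1)` from `1`. -/
theorem limit_spec {y : R}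
    (hlim : ∀ γ : Γ, 0 < γ → ∃ k : ℕ, ν (approxRoot n ninv g k - y) < γ ∧
      (c * (c * ν (g - 1))) ^ k * ν (g - 1) < γ) :
    ν (y ^ n - g) = 0 ∧ ν (y - 1) ≤ c * ν (g - 1) := by
  have hcε1 : c * ν (g - 1) ≤ 1 := by
    have := mul_le_mul' hc1 (le_refl (c * ν (g - 1)))
    rw [one_mul] at this
    exact this.trans hθ
  have hD : ν (y - 1) ≤ c * ν (g - 1) := by
    by_contra hcon
    rw [not_le] at hcon
    obtain ⟨k, hk, -⟩ := hlim (ν (y - 1)) (lt_of_le_of_lt zero_le hcon)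
    have hid : y - 1 = (approxRoot n ninv g k - 1) - (approxRoot n ninv g k - y) := by ring
    have : ν (y - 1) < ν (y - 1) := by
      conv_lhs => rw [hid]
      exact h.map_sub_lt_of_lt ((approxRoot_sub_one_le h hn hc1 hc hθ k).trans_lt hcon) hk
    exact lt_irrefl _ this
  refine ⟨?_, hD⟩
  have hy1 : ν y ≤ 1 := h.map_le_one_of_sub_one (hD.trans hcε1)
  by_contra hne
  have hpos : 0 < ν (y ^ n - g) := zero_lt_iff.mpr hne
  obtain ⟨k, hk, hk'⟩ := hlim _ hpos
  have hid : y ^ n - g = (approxRoot n ninv g k ^ n - g) -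
      (approxRoot n ninv g k ^ n - y ^ n) := by ring
  have : ν (y ^ n - g) < ν (y ^ n - g) := by
    conv_lhs => rw [hid]
    refine h.map_sub_lt_of_lt ((approxRoot_pow_sub_le h hn hc1 hc hθ k).trans_lt hk') ?_
    exact (h.pow_sub_pow_le (approxRoot_le_one h hn hc1 hc hθ k) hy1 n).trans_lt hk
  exact lt_irrefl _ this

end Limit

section Family

variable {ι : Type*} {v : ι → R → Γ} (hv : ∀ i, IsUltra (v i)) {n : ℕ} {ninv g : R}
  (hn : (n : R) * ninv = 1) {c : ι → Γ} (hc1 : ∀ i, 1 ≤ c i) (hc : ∀ i, v i ninv ≤ c i)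
  (hθ : ∀ i, c i * (c i * v i (g - 1)) ≤ 1)
  (hsmall : ∀ i, ∀ γ : Γ, 0 < γ →
    ∃ k : ℕ, c i * ((c i * (c i * v i (g - 1))) ^ k * v i (g - 1)) < γ)
include hv hn hc1 hc hθ hsmall

/-- The approximants are uniformly Cauchy for a finite family. -/
theorem approxRoot_seqCauchy [Finite ι] : SeqCauchy v (approxRoot n ninv g) := by
  classical
  cases nonempty_fintype ι
  intro γ hγ
  choose K hK using fun i => hsmall i γ hγ
  refine ⟨Finset.univ.sup K, ?_⟩
  have key : ∀ m k : ℕ, Finset.univ.sup K ≤ k → k ≤ m → ∀ i,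
      v i (approxRoot n ninv g m - approxRoot n ninv g k) < γ := by
    intro m k hk hkm i
    refine (approxRoot_sub_le (hv i) hn (hc1 i) (hc i) (hθ i) hkm).trans_lt ?_
    refine lt_of_le_of_lt ?_ (hK i)
    have hKi : K i ≤ k := (Finset.le_sup (Finset.mem_univ i)).trans hk
    exact mul_le_mul' le_rfl (mul_le_mul' (pow_le_pow_right_of_le_one' (hθ i) hKi) le_rfl)
  intro m hm k hk i
  rcases le_total k m with hkm | hmk
  · exact key m k hk hkm i
  · rw [(hv i).map_sub_comm]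
    exact key k m hm hmk i

/-- Existence of an `n`-th root of `g` close to `1` (general value monoid; roots up to null
elements; the root is the limit of the approximants). -/
theorem exists_root_near_one' [Finite ι] (hcomplete : SeqComplete v) :
    ∃ y : R, SeqTendsTo v (approxRoot n ninv g) y ∧ (∀ i, v i (y ^ n - g) = 0) ∧
      ∀ i, v i (y - 1) ≤ c i * v i (g - 1) := by
  obtain ⟨y, hy⟩ := hcomplete _ (approxRoot_seqCauchy hv hn hc1 hc hθ hsmall)
  have hspec : ∀ i, v i (y ^ n - g) = 0 ∧ v i (y - 1) ≤ c i * v i (g - 1) := by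
    intro i
    refine limit_spec (hv i) hn (hc1 i) (hc i) (hθ i) fun γ hγ => ?_
    obtain ⟨N, hN⟩ := hy γ hγ
    obtain ⟨k, hk⟩ := hsmall i γ hγ
    refine ⟨max N k, hN _ (le_max_left _ _) i, ?_⟩
    have h1 : (c i * (c i * v i (g - 1))) ^ max N k * v i (g - 1) ≤
        (c i * (c i * v i (g - 1))) ^ k * v i (g - 1) :=
      mul_le_mul' (pow_le_pow_right_of_le_one' (hθ i) (le_max_right _ _)) le_rfl
    have h2 : (c i * (c i * v i (g - 1))) ^ k * v i (g - 1) ≤
        c i * ((c i * (c i * v i (g - 1))) ^ k * v i (g - 1)) := by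
      have := mul_le_mul' (hc1 i) (le_refl ((c i * (c i * v i (g - 1))) ^ k * v i (g - 1)))
      rwa [one_mul] at this
    exact (h1.trans h2).trans_lt hk
  exact ⟨y, hy, fun i => (hspec i).1, fun i => (hspec i).2⟩

end Family

/-- In `ℝ≥0` the smallness hypothesis follows from `θ < 1`. -/
theorem nnreal_small {c ε : ℝ≥0} (hθ : c * (c * ε) < 1) (γ : ℝ≥0) (hγ : 0 < γ) :
    ∃ k : ℕ, c * ((c * (c * ε)) ^ k * ε) < γ := by
  rcases eq_or_ne (c * ε) 0 with h0 | h0
  · refine ⟨0, ?_⟩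
    rw [pow_zero, one_mul, h0]; exact hγ
  · have hpos : 0 < c * ε := pos_iff_ne_zero.mpr h0
    obtain ⟨k, hk⟩ := exists_pow_lt_of_lt_one (div_pos hγ hpos) hθ
    refine ⟨k, ?_⟩
    have := mul_lt_mul_of_pos_right hk hpos
    rw [div_mul_cancel₀ _ h0] at this
    calc c * ((c * (c * ε)) ^ k * ε) = (c * (c * ε)) ^ k * (c * ε) := by ring
      _ < γ := this

section NNReal

variable {ι : Type*} [Finite ι] {v : ι → R → ℝ≥0} (hv : ∀ i, IsUltra (v i))
  (hcomplete : SeqComplete v) {n : ℕ} {ninv : R}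
  (hn : (n : R) * ninv = 1) {c : ι → ℝ≥0} (hc1 : ∀ i, 1 ≤ c i) (hc : ∀ i, v i ninv ≤ c i)
include hv hcomplete hn hc1 hc

/-- **Hensel/Newton for `n`-th roots near `1`** in a ring sequentially complete for the max of
finitely many ultrametric submultiplicative seminorms: if `c i ^ 2 * v i (g - 1) < 1` for all `i`
(`c i ≥ v i (n⁻¹)`), then the chord approximants converge to `y` with `y ^ n = g` up to a null
element and `v i (y - 1) ≤ c i * v i (g - 1)`. -/
theorem exists_root_near_one {g : R} (hg : ∀ i, c i * (c i * v i (g - 1)) < 1) :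
    ∃ y : R, SeqTendsTo v (approxRoot n ninv g) y ∧ (∀ i, v i (y ^ n - g) = 0) ∧
      ∀ i, v i (y - 1) ≤ c i * v i (g - 1) :=
  exists_root_near_one' hv hn hc1 hc (fun i => (hg i).le) (fun i => nnreal_small (hg i))
    hcomplete

omit hcomplete [Finite ι] in
/-- Uniqueness of `n`-th roots close to `1` (separated case). -/
theorem root_unique (hsep : ∀ x : R, (∀ i, v i x = 0) → x = 0) {y y' : R}
    (hpow : y ^ n = y' ^ n) (hy : ∀ i, c i * v i (y - 1) < 1) (hy' : ∀ i, c i * v i (y' - 1) < 1) :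
    y = y' := by
  refine sub_eq_zero.mp (hsep _ fun i => ?_)
  refine sub_eq_zero_of_pow_eq (hv i) hn (hc1 i) (hc i) (hy i) (hy' i) ?_
  rw [hpow, sub_self, (hv i).map_zero]

/-- Exact form of `exists_root_near_one` in the separated case. -/
theorem exists_root_near_one_of_sep (hsep : ∀ x : R, (∀ i, v i x = 0) → x = 0) {g : R}
    (hg : ∀ i, c i * (c i * v i (g - 1)) < 1) :
    ∃ y : R, SeqTendsTo v (approxRoot n ninv g) y ∧ y ^ n = g ∧
      ∀ i, v i (y - 1) ≤ c i * v i (g - 1) := by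
  obtain ⟨y, h1, h2, h3⟩ := exists_root_near_one hv hcomplete hn hc1 hc hg
  exact ⟨y, h1, sub_eq_zero.mp (hsep _ h2), h3⟩

/-- **Roots near an approximate root `y₀`** (overconvergence core): if `y₀` is a unit and
`c i ^ 2 * v i (f - y₀ ^ n) * v i (y₀⁻¹) ^ n < 1` for all `i`, then `f` has an `n`-th root `y`
(up to a null element) with `v i (y - y₀) ≤ v i y₀ * c i * v i (f - y₀ ^ n) * v i (y₀⁻¹) ^ n`;
it is `y₀` times the limit of the approximants of `f * y₀⁻¹ ^ n`. -/
theorem exists_root_near {f y₀ y₀inv : R} (hy₀ : y₀ * y₀inv = 1)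
    (hf : ∀ i, c i * (c i * (v i (f - y₀ ^ n) * v i y₀inv ^ n)) < 1) :
    ∃ z : R, SeqTendsTo v (approxRoot n ninv (f * y₀inv ^ n)) z ∧
      (∀ i, v i ((y₀ * z) ^ n - f) = 0) ∧
      ∀ i, v i (y₀ * z - y₀) ≤ v i y₀ * (c i * (v i (f - y₀ ^ n) * v i y₀inv ^ n)) := by
  have hpow : y₀ ^ n * y₀inv ^ n = 1 := by rw [← mul_pow, hy₀, one_pow]
  have hg1 : f * y₀inv ^ n - 1 = (f - y₀ ^ n) * y₀inv ^ n := by
    linear_combination hpow
  have hgle : ∀ i, v i (f * y₀inv ^ n - 1) ≤ v i (f - y₀ ^ n) * v i y₀inv ^ n := by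
    intro i
    rw [hg1]
    exact (hv i).map_mul_le_of_le le_rfl ((hv i).map_pow_le _ _)
  have hg : ∀ i, c i * (c i * v i (f * y₀inv ^ n - 1)) < 1 := fun i =>
    lt_of_le_of_lt (mul_le_mul' le_rfl (mul_le_mul' le_rfl (hgle i))) (hf i)
  obtain ⟨z, h1, h2, h3⟩ := exists_root_near_one hv hcomplete hn hc1 hc hg
  refine ⟨z, h1, fun i => ?_, fun i => ?_⟩
  · have hid : (y₀ * z) ^ n - f = y₀ ^ n * (z ^ n - f * y₀inv ^ n) := by
      linear_combination f * hpow
    rw [hid]
    have := (hv i).map_mul_le_of_le (le_refl (v i (y₀ ^ n))) (h2 i).le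
    rw [mul_zero] at this
    exact le_antisymm this zero_le
  · have hid : y₀ * z - y₀ = y₀ * (z - 1) := by ring
    rw [hid]
    exact (hv i).map_mul_le_of_le le_rfl ((h3 i).trans (mul_le_mul' le_rfl (hgle i)))

/-- Exact form of `exists_root_near` in the separated case. -/
theorem exists_root_near_of_sep (hsep : ∀ x : R, (∀ i, v i x = 0) → x = 0) {f y₀ y₀inv : R}
    (hy₀ : y₀ * y₀inv = 1)
    (hf : ∀ i, c i * (c i * (v i (f - y₀ ^ n) * v i y₀inv ^ n)) < 1) :
    ∃ y : R, y ^ n = f ∧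
      (∀ i, v i (y - y₀) ≤ v i y₀ * (c i * (v i (f - y₀ ^ n) * v i y₀inv ^ n))) ∧
      SeqTendsTo v (fun k => y₀ * approxRoot n ninv (f * y₀inv ^ n) k) y := by
  obtain ⟨z, h1, h2, h3⟩ := exists_root_near hv hcomplete hn hc1 hc hy₀ hf
  refine ⟨y₀ * z, sub_eq_zero.mp (hsep _ h2), h3, ?_⟩
  intro γ hγ
  cases nonempty_fintype ι
  -- bound `v i y₀` uniformly
  obtain ⟨B, hB0, hB⟩ : ∃ B : ℝ≥0, 0 < B ∧ ∀ i, v i y₀ ≤ B := by
    refine ⟨Finset.univ.sup (fun i => v i y₀) + 1, by positivity, fun i => ?_⟩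
    exact (Finset.le_sup (f := fun i => v i y₀) (Finset.mem_univ i)).trans (by simp)
  obtain ⟨N, hN⟩ := h1 (γ / B) (div_pos hγ hB0)
  refine ⟨N, fun k hk i => ?_⟩
  have hid : y₀ * approxRoot n ninv (f * y₀inv ^ n) k - y₀ * z =
      y₀ * (approxRoot n ninv (f * y₀inv ^ n) k - z) := by ring
  show v i (y₀ * approxRoot n ninv (f * y₀inv ^ n) k - y₀ * z) < γ
  rw [hid]
  refine ((hv i).map_mul_le_of_le (hB i) le_rfl).trans_lt ?_
  have := mul_lt_mul_of_pos_left (hN k hk i) hB0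
  rwa [mul_div_cancel₀ _ hB0.ne'] at this

end NNReal

end Fermat.Agent.FF3.NRoot
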