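/-
Programme I (S33 long shot), leaf L6: Newton/Hensel for `n`-th roots.  Part 4: real-valued wrappers.

* `toNN ν` : a nonnegative real-valued function viewed in `ℝ≥0`; `isUltra_toNN` for nonarchimedean
  ring seminorms (any `RingSeminormClass`, in particular `RingSeminorm`, `MulRingSeminorm`,
  `RingNorm`, `MulRingNorm`, `AbsoluteValue`-like classes);
* `RealSeqComplete v` : explicit real `ε`–`N` sequential completeness for the max of the family;
  `seqComplete_toNN`; `realSeqComplete_of_completeSpace` (provider from a complete normed ring whose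
  norm is the max of the family);
* `exists_root_near_one_real`, `root_unique_real`, `exists_root_near_real` : the statements of
  `Complete.lean` for real-valued submultiplicative seminorms with constants `c i`;
* `exists_root_near_one_mul`, `root_unique_mul`, `exists_root_near_mul` : the same for MULTIPLICATIVE
  seminorms, constants eliminated (`c i = (v i n)⁻¹`): hypotheses `v i (g - 1) < v i n ^ 2`, resp.
  `v i (y₀ ^ n - f) < v i n ^ 2 * v i y₀ ^ n`.
-/
import Mathlib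
import Fermat.Agent.FF3.NRoot.Complete

set_option autoImplicit false

namespace Fermat.Agent.FF3.NRoot

open scoped NNReal

section toNN

variable {R : Type*} {F : Type*} [FunLike F R ℝ]

/-- A nonnegative real-valued function viewed in `ℝ≥0`. -/
def toNN [NonnegHomClass F R ℝ] (ν : F) : R → ℝ≥0 := fun x => ⟨ν x, apply_nonneg ν x⟩

@[simp] theorem coe_toNN [NonnegHomClass F R ℝ] (ν : F) (x : R) : ((toNN ν x : ℝ≥0) : ℝ) = ν x :=
  rfl

theorem toNN_le_iff [NonnegHomClass F R ℝ] (ν : F) (x : R) (b : ℝ≥0) :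
    toNN ν x ≤ b ↔ ν x ≤ (b : ℝ) := Iff.rfl

theorem toNN_lt_iff [NonnegHomClass F R ℝ] (ν : F) (x : R) (b : ℝ≥0) :
    toNN ν x < b ↔ ν x < (b : ℝ) := Iff.rfl

theorem toNN_eq_zero_iff [NonnegHomClass F R ℝ] (ν : F) (x : R) : toNN ν x = 0 ↔ ν x = 0 := by
  rw [← NNReal.coe_eq_zero, coe_toNN]

/-- A nonarchimedean ring seminorm with `ν 1 ≤ 1` is `IsUltra` (viewed in `ℝ≥0`). -/
theorem isUltra_toNN [CommRing R] [RingSeminormClass F R ℝ] (ν : F) (hna : IsNonarchimedean ν)
    (h1 : ν 1 ≤ 1) : IsUltra (toNN ν) where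
  map_zero := by rw [toNN_eq_zero_iff]; exact map_zero ν
  map_one_le := h1
  map_neg := fun x => by
    apply NNReal.coe_injective
    simp only [coe_toNN]
    exact map_neg_eq_map ν x
  map_add_le := fun x y => by
    rw [toNN_le_iff, NNReal.coe_max]
    exact hna x y
  map_mul_le := fun x y => by
    rw [toNN_le_iff, NNReal.coe_mul]
    exact map_mul_le_mul ν x y

end toNN

variable {R : Type*} [CommRing R]

section RealComplete

variable {ι : Type*}

/-- Explicit real `ε`–`N` sequential completeness for the max of a family of real-valued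
functions. -/
def RealSeqComplete (v : ι → R → ℝ) : Prop :=
  ∀ u : ℕ → R,
    (∀ ε : ℝ, 0 < ε → ∃ N : ℕ, ∀ m, N ≤ m → ∀ k, N ≤ k → ∀ i, v i (u m - u k) < ε) →
      ∃ x : R, ∀ ε : ℝ, 0 < ε → ∃ N : ℕ, ∀ k, N ≤ k → ∀ i, v i (u k - x) < ε

theorem seqComplete_toNN {F : Type*} [FunLike F R ℝ] [NonnegHomClass F R ℝ] (v : ι → F)
    (hcomplete : RealSeqComplete fun i x => v i x) : SeqComplete fun i => toNN (v i) := by
  intro u hu
  obtain ⟨x, hx⟩ := hcomplete u fun ε hε => by
    obtain ⟨N, hN⟩ := hu ⟨ε, hε.le⟩ hε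
    exact ⟨N, fun m hm k hk i => hN m hm k hk i⟩
  refine ⟨x, fun γ hγ => ?_⟩
  obtain ⟨N, hN⟩ := hx γ hγ
  exact ⟨N, fun k hk i => hN k hk i⟩

/-- Provider: a complete normed ring whose norm is the max of the family. -/
theorem realSeqComplete_of_completeSpace {S : Type*} [NormedCommRing S] [CompleteSpace S]
    (v : ι → S → ℝ) (hle : ∀ i x, v i x ≤ ‖x‖) (hge : ∀ x, ∃ i, ‖x‖ ≤ v i x) :
    RealSeqComplete v := by
  intro u hu
  have hcau : CauchySeq u := by
    rw [Metric.cauchySeq_iff']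
    intro ε hε
    obtain ⟨N, hN⟩ := hu ε hε
    refine ⟨N, fun m hm => ?_⟩
    obtain ⟨i, hi⟩ := hge (u m - u N)
    rw [dist_eq_norm]
    exact hi.trans_lt (hN m hm N le_rfl i)
  obtain ⟨x, hx⟩ := cauchySeq_tendsto_of_complete hcau
  refine ⟨x, fun ε hε => ?_⟩
  obtain ⟨N, hN⟩ := (Metric.tendsto_atTop.mp hx) ε hε
  refine ⟨N, fun k hk i => (hle i _).trans_lt ?_⟩
  have := hN k hk
  rwa [dist_eq_norm] at this

end RealComplete

section RealFamily

variable {ι : Type*} [Finite ι] {F : Type*} [FunLike F R ℝ] [RingSeminormClass F R ℝ]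
  (v : ι → F) (hna : ∀ i, IsNonarchimedean (v i)) (h1 : ∀ i, v i 1 ≤ 1)
  (hcomplete : RealSeqComplete fun i x => v i x) {n : ℕ} {ninv : R}
  (hn : (n : R) * ninv = 1) {c : ι → ℝ} (hc1 : ∀ i, 1 ≤ c i) (hc : ∀ i, v i ninv ≤ c i)
include hna h1 hcomplete hn hc1 hc

/-- Real-valued form of `exists_root_near_one`. -/
theorem exists_root_near_one_real {g : R} (hg : ∀ i, c i * (c i * v i (g - 1)) < 1) :
    ∃ y : R,
      (∀ ε : ℝ, 0 < ε → ∃ N : ℕ, ∀ k, N ≤ k → ∀ i, v i (approxRoot n ninv g k - y) < ε) ∧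
      (∀ i, v i (y ^ n - g) = 0) ∧ ∀ i, v i (y - 1) ≤ c i * v i (g - 1) := by
  have hc0 : ∀ i, 0 ≤ c i := fun i => zero_le_one.trans (hc1 i)
  obtain ⟨y, hy1, hy2, hy3⟩ := exists_root_near_one (v := fun i => toNN (v i))
    (fun i => isUltra_toNN (v i) (hna i) (h1 i)) (seqComplete_toNN v hcomplete) hn
    (c := fun i => ⟨c i, hc0 i⟩) (fun i => hc1 i) (fun i => hc i) (g := g) (fun i => hg i)
  refine ⟨y, fun ε hε => ?_, fun i => (toNN_eq_zero_iff _ _).mp (hy2 i), fun i => hy3 i⟩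
  obtain ⟨N, hN⟩ := hy1 ⟨ε, hε.le⟩ hε
  exact ⟨N, fun k hk i => hN k hk i⟩

omit hcomplete [Finite ι] in
/-- Real-valued form of `root_unique`. -/
theorem root_unique_real (hsep : ∀ x : R, (∀ i, v i x = 0) → x = 0) {y y' : R}
    (hpow : y ^ n = y' ^ n) (hy : ∀ i, c i * v i (y - 1) < 1) (hy' : ∀ i, c i * v i (y' - 1) < 1) :
    y = y' := by
  have hc0 : ∀ i, 0 ≤ c i := fun i => zero_le_one.trans (hc1 i)
  exact root_unique (v := fun i => toNN (v i))
    (fun i => isUltra_toNN (v i) (hna i) (h1 i)) hn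
    (c := fun i => ⟨c i, hc0 i⟩) (fun i => hc1 i) (fun i => hc i)
    (fun x hx => hsep x fun i => (toNN_eq_zero_iff _ _).mp (hx i)) hpow (fun i => hy i)
    (fun i => hy' i)

/-- Real-valued form of `exists_root_near` (roots near a unit `y₀`). -/
theorem exists_root_near_real {f y₀ y₀inv : R} (hy₀ : y₀ * y₀inv = 1)
    (hf : ∀ i, c i * (c i * (v i (f - y₀ ^ n) * v i y₀inv ^ n)) < 1) :
    ∃ z : R,
      (∀ ε : ℝ, 0 < ε → ∃ N : ℕ, ∀ k, N ≤ k → ∀ i,
        v i (approxRoot n ninv (f * y₀inv ^ n) k - z) < ε) ∧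
      (∀ i, v i ((y₀ * z) ^ n - f) = 0) ∧
      ∀ i, v i (y₀ * z - y₀) ≤ v i y₀ * (c i * (v i (f - y₀ ^ n) * v i y₀inv ^ n)) := by
  have hc0 : ∀ i, 0 ≤ c i := fun i => zero_le_one.trans (hc1 i)
  obtain ⟨z, hz1, hz2, hz3⟩ := exists_root_near (v := fun i => toNN (v i))
    (fun i => isUltra_toNN (v i) (hna i) (h1 i)) (seqComplete_toNN v hcomplete) hn
    (c := fun i => ⟨c i, hc0 i⟩) (fun i => hc1 i) (fun i => hc i) hy₀ (f := f) (fun i => hf i)
  refine ⟨z, fun ε hε => ?_, fun i => (toNN_eq_zero_iff _ _).mp (hz2 i), fun i => hz3 i⟩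
  obtain ⟨N, hN⟩ := hz1 ⟨ε, hε.le⟩ hε
  exact ⟨N, fun k hk i => hN k hk i⟩

end RealFamily

section MulFamily

variable {ι : Type*} [Finite ι] {F : Type*} [FunLike F R ℝ] [MulRingSeminormClass F R ℝ]
  (v : ι → F) (hna : ∀ i, IsNonarchimedean (v i))
  (hcomplete : RealSeqComplete fun i x => v i x) {n : ℕ} {ninv : R}
  (hn : (n : R) * ninv = 1)
include hna hn

omit [Finite ι] in
theorem mul_aux (i : ι) : 0 < v i (n : R) ∧ v i ninv = (v i (n : R))⁻¹ ∧ 1 ≤ (v i (n : R))⁻¹ := by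
  have hmul : v i (n : R) * v i ninv = 1 := by rw [← map_mul, hn, map_one]
  have hpos : 0 < v i (n : R) := by
    rcases (apply_nonneg (v i) (n : R)).lt_or_eq with h | h
    · exact h
    · rw [← h, zero_mul] at hmul; exact absurd hmul zero_ne_one
  have hle : v i (n : R) ≤ 1 := by
    have := (isUltra_toNN (v i) (hna i) (map_one (v i)).le).map_natCast_le n
    exact this
  exact ⟨hpos, eq_inv_of_mul_eq_one_right hmul, (one_le_inv₀ hpos).mpr hle⟩

include hcomplete

/-- **Multiplicative family, roots near `1`**: if `v i (g - 1) < v i n ^ 2` for all `i` then the chord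
approximants converge to some `y` with `y ^ n = g` (up to a null element) and
`v i (y - 1) * v i n ≤ v i (g - 1)`. -/
theorem exists_root_near_one_mul {g : R} (hg : ∀ i, v i (g - 1) < v i (n : R) ^ 2) :
    ∃ y : R,
      (∀ ε : ℝ, 0 < ε → ∃ N : ℕ, ∀ k, N ≤ k → ∀ i, v i (approxRoot n ninv g k - y) < ε) ∧
      (∀ i, v i (y ^ n - g) = 0) ∧ ∀ i, v i (y - 1) * v i (n : R) ≤ v i (g - 1) := by
  have haux := mul_aux v hna hn
  obtain ⟨y, hy1, hy2, hy3⟩ := exists_root_near_one_real v hna (fun i => (map_one (v i)).le)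
    hcomplete hn (c := fun i => (v i (n : R))⁻¹) (fun i => (haux i).2.2)
    (fun i => (haux i).2.1.le) (g := g) (fun i => by
      have hpos := (haux i).1
      rw [← mul_assoc, ← mul_inv, ← sq, inv_mul_lt_iff₀ (pow_pos hpos 2), mul_one]
      exact hg i)
  refine ⟨y, hy1, hy2, fun i => ?_⟩
  have hpos := (haux i).1
  have := hy3 i
  rwa [inv_mul_eq_div, le_div_iff₀ hpos] at this

omit hcomplete [Finite ι] in
/-- **Multiplicative family, uniqueness**: `n`-th roots `y` with `v i (y - 1) < v i n` for all `i` are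
unique (separated case). -/
theorem root_unique_mul (hsep : ∀ x : R, (∀ i, v i x = 0) → x = 0) {y y' : R}
    (hpow : y ^ n = y' ^ n) (hy : ∀ i, v i (y - 1) < v i (n : R))
    (hy' : ∀ i, v i (y' - 1) < v i (n : R)) : y = y' := by
  have haux := mul_aux v hna hn
  refine root_unique_real v hna (fun i => (map_one (v i)).le) hn
    (c := fun i => (v i (n : R))⁻¹) (fun i => (haux i).2.2) (fun i => (haux i).2.1.le) hsep hpow
    (fun i => ?_) (fun i => ?_)
  · rw [inv_mul_lt_iff₀ (haux i).1, mul_one]; exact hy i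
  · rw [inv_mul_lt_iff₀ (haux i).1, mul_one]; exact hy' i

/-- **Multiplicative family, roots near a unit `y₀`** (overconvergence core of B-i): if
`v i (y₀ ^ n - f) < v i n ^ 2 * v i y₀ ^ n` for all `i`, then there is `y` with `y ^ n = f` (up to a
null element) and `v i (y - y₀) * v i n * v i y₀ ^ n ≤ v i y₀ * v i (y₀ ^ n - f)`; `y = y₀ * z` with
`z` the limit of the chord approximants of `f * y₀inv ^ n`. -/
theorem exists_root_near_mul {f y₀ y₀inv : R} (hy₀ : y₀ * y₀inv = 1)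
    (hf : ∀ i, v i (y₀ ^ n - f) < v i (n : R) ^ 2 * v i y₀ ^ n) :
    ∃ z : R,
      (∀ ε : ℝ, 0 < ε → ∃ N : ℕ, ∀ k, N ≤ k → ∀ i,
        v i (approxRoot n ninv (f * y₀inv ^ n) k - z) < ε) ∧
      (∀ i, v i ((y₀ * z) ^ n - f) = 0) ∧
      ∀ i, v i (y₀ * z - y₀) * v i (n : R) * v i y₀ ^ n ≤ v i y₀ * v i (y₀ ^ n - f) := by
  have haux := mul_aux v hna hn
  have hy₀' : ∀ i, 0 < v i y₀ ∧ v i y₀inv = (v i y₀)⁻¹ := by
    intro i
    have hmul : v i y₀ * v i y₀inv = 1 := by rw [← map_mul, hy₀, map_one]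
    have hpos : 0 < v i y₀ := by
      rcases (apply_nonneg (v i) y₀).lt_or_eq with h | h
      · exact h
      · rw [← h, zero_mul] at hmul; exact absurd hmul zero_ne_one
    exact ⟨hpos, eq_inv_of_mul_eq_one_right hmul⟩
  have hsymm : ∀ i, v i (f - y₀ ^ n) = v i (y₀ ^ n - f) := fun i => by
    rw [← neg_sub, map_neg_eq_map]
  obtain ⟨z, hz1, hz2, hz3⟩ := exists_root_near_real v hna (fun i => (map_one (v i)).le)
    hcomplete hn (c := fun i => (v i (n : R))⁻¹) (fun i => (haux i).2.2)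
    (fun i => (haux i).2.1.le) hy₀ (f := f) (fun i => by
      have hpos := (haux i).1
      have hypos := (hy₀' i).1
      rw [(hy₀' i).2, hsymm, ← mul_assoc, ← mul_inv, ← sq, inv_pow, ← div_eq_mul_inv,
        inv_mul_lt_iff₀ (pow_pos hpos 2), mul_one, div_lt_iff₀ (pow_pos hypos n)]
      exact hf i)
  refine ⟨z, hz1, hz2, fun i => ?_⟩
  have hpos := (haux i).1
  have hypos := (hy₀' i).1
  have := hz3 i
  rw [(hy₀' i).2, hsymm, inv_pow, ← div_eq_mul_inv, inv_mul_eq_div, div_div, mul_div_assoc',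
    le_div_iff₀ (mul_pos (pow_pos hypos n) hpos)] at this
  calc v i (y₀ * z - y₀) * v i (n : R) * v i y₀ ^ n
      = v i (y₀ * z - y₀) * (v i y₀ ^ n * v i (n : R)) := by ring
    _ ≤ _ := this

end MulFamily

end Fermat.Agent.FF3.NRoot
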